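import Fermat.Agent.S26.StepA
import Fermat.Agent.S26.Curve.CFExtra

/-! # S26 / M8-c : genericity of `η + ε` for `ε` defined over an independent field. -/

set_option autoImplicit false

universe u

namespace Fermat.Agent.S26

open AlgebraicCurve IsLocalRing Cardinal
open scoped IntermediateField.algebraAdjoinAdjoin

/-- subadditivity of the transcendence degree for a compositum -/
theorem trdeg_le_add_of_sup_eq_top {K E : Type u} [Field K] [Field E] [Algebra K E]
    (L₁ L₂ : IntermediateField K E) (h : L₁ ⊔ L₂ = ⊤) :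
    Algebra.trdeg K E ≤ Algebra.trdeg K L₁ + Algebra.trdeg K L₂ := by
  obtain ⟨s₁, hs₁⟩ := exists_isTranscendenceBasis K L₁
  obtain ⟨s₂, hs₂⟩ := exists_isTranscendenceBasis K L₂
  let S : Set E := (L₁.val '' s₁) ∪ (L₂.val '' s₂)
  let E₀ := IntermediateField.adjoin K S
  have key : ∀ (L : IntermediateField K E) (s : Set L), IsTranscendenceBasis K ((↑) : s → L) →
      L.val '' s ⊆ S → ∀ z ∈ L, IsAlgebraic E₀ z := by
    intro L s hs hsS z hz
    have halg := hs.isAlgebraic
    have h1 : IsAlgebraic (Algebra.adjoin K (Set.range ((↑) : s → L))) (⟨z, hz⟩ : L) :=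
      Algebra.IsAlgebraic.isAlgebraic _
    have hmem : ∀ a : Algebra.adjoin K (Set.range ((↑) : s → L)), ((a : L) : E) ∈ E₀ := by
      intro a
      have h2 : ((a : L) : E) ∈ (Algebra.adjoin K (Set.range ((↑) : s → L))).map L.val :=
        ⟨a, a.2, rfl⟩
      rw [AlgHom.map_adjoin] at h2
      have h3 : Algebra.adjoin K (L.val '' Set.range ((↑) : s → L)) ≤ Algebra.adjoin K S := by
        apply Algebra.adjoin_mono
        rw [Subtype.range_coe]
        exact hsS
      exact IntermediateField.algebra_adjoin_le_adjoin K S (h3 h2)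
    let f : Algebra.adjoin K (Set.range ((↑) : s → L)) →+* E₀ :=
      { toFun := fun a => ⟨((a : L) : E), hmem a⟩
        map_one' := rfl
        map_mul' := fun _ _ => rfl
        map_zero' := rfl
        map_add' := fun _ _ => rfl }
    have hf : Function.Injective f := by
      intro a b hab
      have := congrArg Subtype.val hab
      exact Subtype.ext (Subtype.ext this)
    exact h1.ringHom_of_comp_eq f (L.val : L →+* E) hf rfl
  have h₁ := key L₁ s₁ hs₁ Set.subset_union_left
  have h₂ := key L₂ s₂ hs₂ Set.subset_union_right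
  have h3 : ∀ z : E, IsAlgebraic E₀ z := fun z =>
    StepA.isAlgebraic_of_mem_sup E₀ L₁ L₂ h₁ h₂ z (h ▸ IntermediateField.mem_top)
  have h4 : Algebra.IsAlgebraic (Algebra.adjoin K S) E :=
    ⟨fun z => (IsFractionRing.isAlgebraic_iff (Algebra.adjoin K S) E₀ E).mpr (h3 z)⟩
  calc Algebra.trdeg K E ≤ #S := Algebra.IsAlgebraic.trdeg_le_cardinalMk K S
    _ ≤ #(L₁.val '' s₁ : Set E) + #(L₂.val '' s₂ : Set E) := Cardinal.mk_union_le _ _
    _ ≤ #s₁ + #s₂ := add_le_add Cardinal.mk_image_le Cardinal.mk_image_le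
    _ = Algebra.trdeg K L₁ + Algebra.trdeg K L₂ := by
      rw [hs₁.cardinalMk_eq_trdeg, hs₂.cardinalMk_eq_trdeg]

namespace AVModel

variable {K : Type u} [Field K] [IsAlgClosed K] {F : Type u} [Field F] [Algebra K F] (M : AVModel K F)

theorem isGeneric_eta_add_of_fin {FC : Type u} [Field FC] [Algebra K FC]
    (hfin : Algebra.trdeg K FC < ℵ₀) (ε : M.Pt FC) :
    M.IsGeneric (M.bc F (CF K F FC) M.eta + M.map (CF.inr K F FC) ε) := by
  set ηE : M.Pt (CF K F FC) := M.bc F (CF K F FC) M.eta with hηE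
  set εE := M.map (CF.inr K F FC) ε with hεE
  set x := ηE + εE with hx
  rw [M.isGeneric_iff_dim]
  apply le_antisymm (M.dim_le _)
  have h1 : M.fd ηE = (CF.inl K F FC).fieldRange := by
    rw [hηE, M.fd_eq_fieldRange _ (M.isGeneric_map_eta _), M.emb_map_eta]; rfl
  have h2 : M.fd εE ≤ (CF.inr K F FC).fieldRange := M.fd_map_le _ _
  have h3 : M.fd ηE ≤ M.fd x ⊔ (CF.inr K F FC).fieldRange := by
    have : ηE = x - εE := by rw [hx]; abel
    conv_lhs => rw [this]
    exact (M.fd_sub_le x εE).trans (sup_le_sup_left h2 _)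
  have htop : M.fd x ⊔ (CF.inr K F FC).fieldRange = ⊤ := by
    rw [eq_top_iff, ← StepA.fieldRange_inl_sup_inr, ← h1]
    exact sup_le h3 le_sup_right
  have h4 := trdeg_le_add_of_sup_eq_top _ _ htop
  have h5 : Algebra.trdeg K (CF.inr K F FC).fieldRange = Algebra.trdeg K FC :=
    (AlgEquiv.ofInjectiveField (CF.inr K F FC)).trdeg_eq.symm
  rw [trdeg_CF, M.trdeg_eq, M.trdeg_fd, h5] at h4
  obtain ⟨d, hd⟩ := Cardinal.lt_aleph0.mp hfin
  rw [hd] at h4
  have h6 : M.g + d ≤ M.dim (M.ctr x) + d := by exact_mod_cast h4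
  omega

/-- genericity of translates of `η` by points defined over an independent field -/
theorem isGeneric_eta_add {FC : Type u} [Field FC] [Algebra K FC] (ε : M.Pt FC) :
    M.IsGeneric (M.bc F (CF K F FC) M.eta + M.map (CF.inr K F FC) ε) := by
  obtain ⟨ε₀, hε₀⟩ := M.exists_descend ε
  have hfin : Algebra.trdeg K (M.fd ε) < ℵ₀ := by
    rw [M.trdeg_fd]; exact Cardinal.natCast_lt_aleph0
  have hinj := TopAlg.productMap_comp_injective (CF.inl K F FC) (CF.inr K F FC) (AlgHom.id K F)
    (M.fd ε).val TopAlg.productMap_inl_inr_injective Function.injective_id (M.fd ε).val.injective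
  obtain ⟨φ, hφ1, hφ2⟩ := CF.exists_lift _ _ hinj
  have h0 := M.isGeneric_eta_add_of_fin hfin ε₀
  have h1 : M.bc F (CF K F FC) M.eta + M.map (CF.inr K F FC) ε =
      M.map φ (M.bc F (CF K F (M.fd ε)) M.eta + M.map (CF.inr K F (M.fd ε)) ε₀) := by
    have e1 : M.map φ (M.bc F (CF K F (M.fd ε)) M.eta) = M.bc F (CF K F FC) M.eta := by
      have : M.bc F (CF K F (M.fd ε)) M.eta = M.map (CF.inl K F (M.fd ε)) M.eta := rfl
      rw [this, ← M.map_comp, hφ1]
      rfl
    rw [M.map_add, e1, ← M.map_comp, hφ2, M.map_comp, hε₀]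
  rw [h1, IsGeneric, M.ctr_map_field]
  exact h0

end AVModel

end Fermat.Agent.S26
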